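import Fermat.Agent.AbelianHeight.HeightMap
import Mathlib.Analysis.SpecialFunctions.Pow.Real

/-!
# Garza's inequality in a number field

With `G ^ 2 = q G + 1` and `a = 1 / (G ^ 2 + 1)`, `b = 1/2 - a` one has
`a log t + b log |1 - t ^ 2| + log G / 2 - b log q ≤ log⁺ t` at a real place and
`a log |z| + b log |1 - z ^ 2| ≤ log⁺ |z| + b log 2` everywhere, so the product formula gives Garza's
bound.
-/

set_option autoImplicit false

noncomputable section

namespace FA.RealConjugates

open NumberField Real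

/-- The constant `G (d, r)`. -/
def garzaG (d r : ℝ) : ℝ :=
  ((2 : ℝ) ^ (1 - d / r) + √(((2 : ℝ) ^ (1 - d / r)) ^ 2 + 4)) / 2

theorem garzaG_sq (d r : ℝ) :
    garzaG d r ^ 2 = (2 : ℝ) ^ (1 - d / r) * garzaG d r + 1 := by
  unfold garzaG
  have h := Real.sq_sqrt (show (0 : ℝ) ≤ ((2 : ℝ) ^ (1 - d / r)) ^ 2 + 4 by positivity)
  generalize (2 : ℝ) ^ (1 - d / r) = q at h ⊢
  linear_combination h / 4

theorem one_lt_garzaG (d r : ℝ) : 1 < garzaG d r := by
  unfold garzaG
  have hq : (0 : ℝ) < (2 : ℝ) ^ (1 - d / r) := Real.rpow_pos_of_pos two_pos _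
  have h2 : (2 : ℝ) ≤ √(((2 : ℝ) ^ (1 - d / r)) ^ 2 + 4) := by
    rw [Real.le_sqrt (by norm_num) (by positivity)]
    nlinarith
  linarith

/-- The weight `a`. -/
def wa (G : ℝ) : ℝ := 1 / (G ^ 2 + 1)

/-- The weight `b`. -/
def wb (G : ℝ) : ℝ := (G ^ 2 - 1) / (2 * (G ^ 2 + 1))

theorem wa_add_wb (G : ℝ) : wa G + wb G = 1 / 2 := by
  have : G ^ 2 + 1 ≠ 0 := by positivity
  unfold wa wb
  field_simp
  ring

theorem wa_nonneg (G : ℝ) : 0 ≤ wa G := by unfold wa; positivity

theorem wb_nonneg {G : ℝ} (hG : 1 < G) : 0 ≤ wb G := by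
  unfold wb
  exact div_nonneg (by nlinarith) (by positivity)

theorem wa_mul (G : ℝ) : wa G * (G ^ 2 - 1) = 2 * wb G := by
  have : G ^ 2 + 1 ≠ 0 := by positivity
  unfold wa wb
  field_simp

/-- The inequality inside the unit interval. -/
theorem log_ineq_lt_one {G q u : ℝ} (hG : 1 < G) (hq : 0 < q) (hGq : G ^ 2 = q * G + 1)
    (hu0 : 0 < u) (hu1 : u < 1) :
    wa G * log u + wb G * log (1 - u ^ 2) + log G / 2 - wb G * log q ≤ 0 := by
  have hG0 : 0 < G := by linarith
  have hs : 0 < 1 - u ^ 2 := by nlinarith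
  have h1 := Real.log_le_sub_one_of_pos (show (0 : ℝ) < u ^ 2 * G ^ 2 by positivity)
  have h2 := Real.log_le_sub_one_of_pos (show (0 : ℝ) < (1 - u ^ 2) * (G / q) by positivity)
  rw [Real.log_mul (by positivity) (by positivity), Real.log_pow, Real.log_pow] at h1
  rw [Real.log_mul hs.ne' (by positivity), Real.log_div hG0.ne' hq.ne'] at h2
  push_cast at h1
  have h3 := add_le_add (mul_le_mul_of_nonneg_left h1 (div_nonneg (wa_nonneg G) two_pos.le))
    (mul_le_mul_of_nonneg_left h2 (wb_nonneg hG))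
  have e : wa G / 2 * (u ^ 2 * G ^ 2 - 1) + wb G * ((1 - u ^ 2) * (G / q) - 1) = 0 := by
    have hq2 : G / q = G ^ 2 / (G ^ 2 - 1) := by
      rw [div_eq_div_iff hq.ne' (by nlinarith)]
      linear_combination G * hGq
    have hG1 : G ^ 2 - 1 ≠ 0 := by nlinarith
    rw [hq2, show wb G = wa G * (G ^ 2 - 1) / 2 by linarith [wa_mul G]]
    field_simp
    ring
  rw [e] at h3
  linear_combination h3 - (log G) * wa_add_wb G

/-- **The inequality at a real place.** -/
theorem log_ineq_real {G q t : ℝ} (hG : 1 < G) (hq : 0 < q) (hGq : G ^ 2 = q * G + 1) (h0 : 0 < t)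
    (h1 : t ≠ 1) :
    wa G * log t + wb G * log |1 - t ^ 2| + (log G / 2 - wb G * log q) ≤ Real.posLog t := by
  rcases h1.lt_or_gt with h | h
  · rw [abs_of_pos (by nlinarith : (0 : ℝ) < 1 - t ^ 2)]
    have := log_ineq_lt_one hG hq hGq h0 h
    linarith [Real.posLog_nonneg (x := t)]
  · have hh := log_ineq_lt_one hG hq hGq (inv_pos.2 h0) (inv_lt_one_of_one_lt₀ h)
    rw [show 1 - t⁻¹ ^ 2 = (t ^ 2 - 1) / t ^ 2 by field_simp, Real.log_inv,
      Real.log_div (by nlinarith) (by positivity), Real.log_pow] at hh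
    rw [abs_sub_comm, abs_of_pos (by nlinarith : (0 : ℝ) < t ^ 2 - 1),
      Real.posLog_eq_log (by rw [abs_of_pos h0]; exact h.le)]
    push_cast at hh
    linear_combination hh + 2 * log t * wa_add_wb G

/-- **The inequality at any place.** -/
theorem log_ineq_all {G t s : ℝ} (hG : 1 < G) (h0 : 0 < t) (hs0 : 0 < s) (hs : s ≤ 1 + t ^ 2) :
    wa G * log t + wb G * log s - wb G * log 2 ≤ Real.posLog t := by
  have hb := wb_nonneg hG
  have ha := wa_nonneg G
  rcases le_or_gt t 1 with h | h
  · have h1 : log t ≤ 0 := Real.log_nonpos h0.le h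
    have h2 : log s ≤ log 2 := Real.log_le_log hs0 (hs.trans (by nlinarith))
    nlinarith [Real.posLog_nonneg (x := t), mul_le_mul_of_nonneg_left h2 hb,
      mul_nonpos_of_nonneg_of_nonpos ha h1]
  · rw [Real.posLog_eq_log (by rw [abs_of_pos h0]; exact h.le)]
    have h2 : log s ≤ log 2 + 2 * log t := by
      refine (Real.log_le_log hs0 (hs.trans (by nlinarith : 1 + t ^ 2 ≤ 2 * t ^ 2))).trans ?_
      rw [Real.log_mul two_ne_zero (by positivity), Real.log_pow]
      norm_num
    have h3 := mul_le_mul_of_nonneg_left h2 hb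
    have h4 : (wa G + 2 * wb G) * log t ≤ log t :=
      mul_le_of_le_one_left (Real.log_nonneg h.le) (by linarith [wa_add_wb G])
    linarith

variable {K : Type*} [Field K] [NumberField K]

/-- **Garza's bound in a number field.** -/
theorem height_ge_garza {x : K} (hx : x ≠ 0) (hne : x ^ 2 ≠ 1)
    (hr : 0 < InfinitePlace.nrRealPlaces K) :
    (InfinitePlace.nrRealPlaces K : ℝ) / 2 *
        log (garzaG (Module.finrank ℚ K) (InfinitePlace.nrRealPlaces K)) ≤
      Height.logHeight₁ x := by
  classical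
  set r := InfinitePlace.nrRealPlaces K
  set D := Module.finrank ℚ K
  set q := (2 : ℝ) ^ (1 - (D : ℝ) / r)
  set G := garzaG (D : ℝ) r
  have hG : 1 < G := one_lt_garzaG _ _
  have hq : 0 < q := Real.rpow_pos_of_pos two_pos _
  have hGq : G ^ 2 = q * G + 1 := garzaG_sq _ _
  have hb := wb_nonneg hG
  set δ := 1 - x ^ 2
  have hδ : δ ≠ 0 := sub_ne_zero.2 (Ne.symm hne)
  obtain ⟨T, hT⟩ : ∃ T : Finset (FinitePlace K), ∀ y ∈ ({x, δ} : Set K),
      (Function.mulSupport fun v : FinitePlace K => v y) ⊆ T := by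
    refine ⟨((FinitePlace.hasFiniteMulSupport hx).union
      (FinitePlace.hasFiniteMulSupport hδ)).toFinset, fun y hy v hv => ?_⟩
    rw [Set.Finite.coe_toFinset]
    rcases hy with rfl | rfl
    exacts [Or.inl hv, Or.inr hv]
  have hlog : ∀ y : K, y ≠ 0 → y ∈ ({x, δ} : Set K) →
      ∑ w : InfinitePlace K, (w.mult : ℝ) * log (w y) + ∑ v ∈ T, log (v y) = 0 := by
    intro y hy hmem
    have h := congrArg Real.log (prod_abs_eq_one hy)
    rw [finprod_eq_prod_of_mulSupport_subset _ (hT y hmem), Real.log_one, Real.log_mul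
      (Finset.prod_ne_zero_iff.2 fun w _ => pow_ne_zero _ (InfinitePlace.pos_iff.2 hy).ne')
      (Finset.prod_ne_zero_iff.2 fun v _ => (FinitePlace.pos_iff.2 hy).ne'),
      Real.log_prod fun w _ => pow_ne_zero _ (InfinitePlace.pos_iff.2 hy).ne',
      Real.log_prod fun v _ => (FinitePlace.pos_iff.2 hy).ne'] at h
    simpa only [Real.log_pow] using h
  have hh : Height.logHeight₁ x =
      ∑ w : InfinitePlace K, (w.mult : ℝ) * Real.posLog (w x) + ∑ v ∈ T, Real.posLog (v x) := by
    rw [logHeight₁_eq, finsum_eq_sum_of_support_subset]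
    intro v hv
    refine hT x (by simp) fun h1 => hv ?_
    simp only [h1, Real.posLog_one]
  set κ : InfinitePlace K → ℝ :=
    fun w => if w.IsReal then log G / 2 - wb G * log q + wb G * log 2 else 0
  have hinf : ∀ w : InfinitePlace K, (w.mult : ℝ) * (wa G * log (w x) + wb G * log (w δ) -
      wb G * log 2) + κ w ≤ (w.mult : ℝ) * Real.posLog (w x) := by
    intro w
    have h0 : 0 < w x := InfinitePlace.pos_iff.2 hx
    have hs0 : 0 < w δ := InfinitePlace.pos_iff.2 hδ
    simp only [κ]
    split_ifs with hw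
    · rw [InfinitePlace.mult, if_pos hw, Nat.cast_one, one_mul, one_mul]
      have hre : (w.embedding x).im = 0 :=
        Complex.conj_eq_iff_im.1 (RingHom.congr_fun (InfinitePlace.isReal_iff.1 hw) x)
      have hδw : w δ = |1 - w x ^ 2| := by
        rw [← InfinitePlace.norm_embedding_eq w δ, ← InfinitePlace.norm_embedding_eq w x,
          map_sub, map_one, map_pow, ← Complex.abs_re_eq_norm.2 hre, sq_abs]
        rw [show w.embedding x = ((w.embedding x).re : ℂ) from
          Complex.ext (by simp) (by simp [hre])]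
        rw [← Complex.ofReal_pow, ← Complex.ofReal_one, ← Complex.ofReal_sub, Complex.norm_real,
          Real.norm_eq_abs, Complex.ofReal_re]
      rw [hδw] at hs0 ⊢
      have := log_ineq_real hG hq hGq h0 fun h1 => hs0.ne' (by rw [h1]; simp)
      linarith
    · rw [add_zero]
      refine mul_le_mul_of_nonneg_left (log_ineq_all hG h0 hs0 ?_) (Nat.cast_nonneg _)
      rw [← InfinitePlace.norm_embedding_eq w δ, ← InfinitePlace.norm_embedding_eq w x, map_sub,
        map_one, map_pow]
      refine (norm_sub_le _ _).trans ?_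
      rw [norm_one, norm_pow]
  have hnon : ∀ v : FinitePlace K, wa G * log (v x) + wb G * log (v δ) ≤ Real.posLog (v x) := by
    intro v
    have h1 : log (v x) ≤ Real.posLog (v x) := le_max_right _ _
    have h0 := Real.posLog_nonneg (x := v x)
    have h2 : log (v δ) ≤ 2 * Real.posLog (v x) := by
      have hle := FinitePlace.add_le v 1 (-(x ^ 2))
      rw [← sub_eq_add_neg, map_one, FinitePlace.coe_apply v (-_), AbsoluteValue.map_neg,
        ← FinitePlace.coe_apply, map_pow] at hle
      rcases le_max_iff.1 hle with h | h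
      · exact (Real.log_nonpos (apply_nonneg v _) h).trans (by linarith)
      · refine (Real.log_le_log (FinitePlace.pos_iff.2 hδ) h).trans ?_
        rw [Real.log_pow]
        push_cast
        linarith
    calc wa G * log (v x) + wb G * log (v δ)
        ≤ wa G * Real.posLog (v x) + wb G * (2 * Real.posLog (v x)) :=
          add_le_add (mul_le_mul_of_nonneg_left h1 (wa_nonneg G))
            (mul_le_mul_of_nonneg_left h2 hb)
      _ = (wa G + 2 * wb G) * Real.posLog (v x) := by ring
      _ ≤ _ := mul_le_of_le_one_left h0 (by linarith [wa_add_wb G, wa_nonneg G])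
  have hI := Finset.sum_le_sum fun w (_ : w ∈ (Finset.univ : Finset (InfinitePlace K))) => hinf w
  have hF := Finset.sum_le_sum fun v (_ : v ∈ T) => hnon v
  have hD : (∑ w : InfinitePlace K, (w.mult : ℝ)) = D := by
    exact_mod_cast InfinitePlace.sum_mult_eq (K := K)
  have hκ : ∑ w : InfinitePlace K, κ w =
      (r : ℝ) * (log G / 2 - wb G * log q + wb G * log 2) := by
    simp only [κ]
    rw [← Finset.sum_filter, Finset.sum_const, nsmul_eq_mul]
    congr 2
    rw [← Fintype.card_subtype]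
  rw [Finset.sum_congr rfl fun w _ => show (w.mult : ℝ) * (wa G * log (w x) + wb G * log (w δ) -
      wb G * log 2) + κ w = wa G * ((w.mult : ℝ) * log (w x)) + wb G * ((w.mult : ℝ) * log (w δ)) -
        (w.mult : ℝ) * (wb G * log 2) + κ w by ring,
    Finset.sum_add_distrib, Finset.sum_sub_distrib, Finset.sum_add_distrib, ← Finset.mul_sum,
    ← Finset.mul_sum, ← Finset.sum_mul, hD, hκ] at hI
  rw [Finset.sum_add_distrib, ← Finset.mul_sum, ← Finset.mul_sum] at hF
  have e1' : wa G * ∑ w : InfinitePlace K, (w.mult : ℝ) * log (w x) +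
      wa G * ∑ v ∈ T, log (v x) = 0 := by rw [← mul_add, hlog x hx (by simp), mul_zero]
  have e2' : wb G * ∑ w : InfinitePlace K, (w.mult : ℝ) * log (w δ) +
      wb G * ∑ v ∈ T, log (v δ) = 0 := by rw [← mul_add, hlog δ hδ (by simp), mul_zero]
  have hlq : (r : ℝ) * log q = ((r : ℝ) - D) * log 2 := by
    have hr' : (r : ℝ) ≠ 0 := Nat.cast_ne_zero.2 hr.ne'
    simp only [q]
    rw [Real.log_rpow two_pos]
    field_simp
  have e3 : (r : ℝ) * (log G / 2 - wb G * log q + wb G * log 2) - (D : ℝ) * (wb G * log 2) =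
      (r : ℝ) / 2 * log G := by linear_combination -(wb G) * hlq
  rw [hh]
  linarith

end FA.RealConjugates

end
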