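import Fermat.Agent.AbelianHeight.Free
import Fermat.Agent.RealConjugates.Bound
import Mathlib.FieldTheory.Separable
import Mathlib.NumberTheory.Real.GoldenRatio

/-!
# Algebraic numbers with real conjugates

Garza's bound for an algebraic number, its Mahler measure form, and fields in which every element
has a positive proportion of real conjugates.
-/

set_option autoImplicit false
set_option linter.style.haveILetI false

noncomputable section

namespace FA.RealConjugates

open NumberField Polynomial IntermediateField Real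

/-- The number of real roots of the minimal polynomial in `ℂ`. -/
def realConj (x : ℂ) : ℕ := (((minpoly ℚ x).aroots ℂ).filter fun y => y.im = 0).card

/-- The real places of `ℚ⟮x⟯` correspond to the real conjugates of `x`. -/
theorem nrRealPlaces_adjoin {x : ℂ} (halg : IsAlgebraic ℚ x) [NumberField ℚ⟮x⟯] :
    InfinitePlace.nrRealPlaces ℚ⟮x⟯ = realConj x := by
  classical
  have hint := halg.isIntegral
  have hnd : ((minpoly ℚ x).aroots ℂ).Nodup :=
    Polynomial.nodup_roots (minpoly.irreducible hint).separable.map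
  rw [realConj, ← Multiset.toFinset_card_of_nodup (hnd.filter _), ← Fintype.card_coe,
    ← InfinitePlace.card_real_embeddings]
  set g := AdjoinSimple.gen ℚ x
  have hmem : ∀ φ : {φ : ℚ⟮x⟯ →+* ℂ // ComplexEmbedding.IsReal φ},
      φ.1 g ∈ (((minpoly ℚ x).aroots ℂ).filter fun y => y.im = 0).toFinset := by
    intro φ
    rw [Multiset.mem_toFinset, Multiset.mem_filter, mem_aroots]
    refine ⟨⟨minpoly.ne_zero hint, ?_⟩, Complex.conj_eq_iff_im.1
      (RingHom.congr_fun (ComplexEmbedding.isReal_iff.1 φ.2) g)⟩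
    have e : aeval g (minpoly ℚ x) = 0 := IntermediateField.aeval_gen_minpoly ℚ x
    rw [← RingHom.toRatAlgHom_apply φ.1 g, aeval_algHom_apply, e, map_zero]
  refine Fintype.card_congr (Equiv.ofBijective (fun φ => ⟨φ.1 g, hmem φ⟩) ⟨fun φ ψ h => ?_, ?_⟩)
  · have hg : φ.1.toRatAlgHom g = ψ.1.toRatAlgHom g := congrArg Subtype.val h
    have heq : φ.1.toRatAlgHom = ψ.1.toRatAlgHom :=
      IntermediateField.adjoin_algHom_ext ℚ fun z hz => by
        rw [Set.mem_singleton_iff] at hz
        subst hz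
        exact hg
    exact Subtype.ext (RingHom.ext fun y => DFunLike.congr_fun heq y)
  · rintro ⟨y, hy⟩
    rw [Multiset.mem_toFinset, Multiset.mem_filter] at hy
    set τ := (algHomAdjoinIntegralEquiv ℚ hint).symm ⟨y, hy.1⟩
    have hτ : τ g = y := algHomAdjoinIntegralEquiv_symm_apply_gen ℚ hint ⟨y, hy.1⟩
    have hreal : ComplexEmbedding.IsReal τ.toRingHom := by
      rw [ComplexEmbedding.isReal_iff]
      have heq : ((Complex.conjAe.toAlgHom.restrictScalars ℚ).comp τ) = τ := by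
        refine IntermediateField.adjoin_algHom_ext ℚ fun z hz => ?_
        rw [Set.mem_singleton_iff] at hz
        subst hz
        show starRingEnd ℂ (τ g) = τ g
        rw [hτ]
        exact Complex.conj_eq_iff_im.2 hy.2
      exact RingHom.ext fun z => DFunLike.congr_fun heq z
    exact ⟨⟨τ.toRingHom, hreal⟩, Subtype.ext hτ⟩

/-- **Garza's theorem.** -/
theorem algHeight_ge {x : ℂ} (halg : IsAlgebraic ℚ x) (h0 : x ≠ 0) (h1 : x ≠ 1) (h2 : x ≠ -1)
    (hr : 0 < realConj x) :
    (realConj x : ℝ) / (2 * (minpoly ℚ x).natDegree) *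
        log (garzaG (minpoly ℚ x).natDegree (realConj x)) ≤ BiluTorus.algHeight x := by
  haveI : FiniteDimensional ℚ ℚ⟮x⟯ := adjoin.finiteDimensional halg.isIntegral
  haveI : NumberField ℚ⟮x⟯ := {}
  set g := AdjoinSimple.gen ℚ x
  have hgx : (g : ℂ) = x := rfl
  have hne : g ^ 2 ≠ 1 := by
    intro e
    rcases sq_eq_one_iff.1 e with e | e
    exacts [h1 (by rw [← hgx, e]; rfl), h2 (by rw [← hgx, e]; simp)]
  have h := height_ge_garza (x := g) (fun e => h0 (by rw [← hgx, e]; rfl)) hne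
    (by rwa [nrRealPlaces_adjoin halg])
  rw [nrRealPlaces_adjoin halg, IntermediateField.adjoin.finrank halg.isIntegral,
    AbelianHeight.logHeight_eq_algHeight (IntermediateField.val ℚ⟮x⟯) g,
    IntermediateField.adjoin.finrank halg.isIntegral] at h
  have hd : (0 : ℝ) < (minpoly ℚ x).natDegree :=
    Nat.cast_pos.2 (minpoly.natDegree_pos halg.isIntegral)
  have he : (realConj x : ℝ) / (2 * (minpoly ℚ x).natDegree) *
      log (garzaG (minpoly ℚ x).natDegree (realConj x)) = (realConj x : ℝ) / 2 *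
        log (garzaG (minpoly ℚ x).natDegree (realConj x)) / (minpoly ℚ x).natDegree := by
    field_simp
  rw [he, div_le_iff₀ hd, mul_comm _ (((minpoly ℚ x).natDegree : ℕ) : ℝ)]
  exact h

/-- `G` grows with the proportion of real conjugates. -/
theorem garzaG_mono {d r d' r' : ℝ} (h : d / r ≤ d' / r') : garzaG d' r' ≤ garzaG d r := by
  have hq : (2 : ℝ) ^ (1 - d' / r') ≤ (2 : ℝ) ^ (1 - d / r) :=
    Real.rpow_le_rpow_of_exponent_le one_le_two (by linarith)
  have hq0 : (0 : ℝ) < (2 : ℝ) ^ (1 - d' / r') := Real.rpow_pos_of_pos two_pos _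
  unfold garzaG
  have : √(((2 : ℝ) ^ (1 - d' / r')) ^ 2 + 4) ≤ √(((2 : ℝ) ^ (1 - d / r)) ^ 2 + 4) :=
    Real.sqrt_le_sqrt (by nlinarith)
  linarith

/-- For totally real numbers `G` is the golden ratio. -/
theorem garzaG_self {d : ℝ} (hd : d ≠ 0) : garzaG d d = Real.goldenRatio := by
  rw [garzaG, div_self hd, sub_self, Real.rpow_zero, Real.goldenRatio]
  norm_num

/-- The lower bound under a proportion `δ` of real conjugates. -/
theorem algHeight_ge_proportion {δ : ℝ} (hδ : 0 < δ) {x : ℂ} (halg : IsAlgebraic ℚ x) (h0 : x ≠ 0)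
    (h1 : x ≠ 1) (h2 : x ≠ -1) (hr : δ * (minpoly ℚ x).natDegree ≤ realConj x) :
    δ / 2 * log (garzaG 1 δ) ≤ BiluTorus.algHeight x := by
  have hd : (0 : ℝ) < (minpoly ℚ x).natDegree :=
    Nat.cast_pos.2 (minpoly.natDegree_pos halg.isIntegral)
  have hr0 : (0 : ℝ) < realConj x := (mul_pos hδ hd).trans_le hr
  refine le_trans ?_ (algHeight_ge halg h0 h1 h2 (by exact_mod_cast hr0))
  refine mul_le_mul ?_ (Real.log_le_log (zero_lt_one.trans (one_lt_garzaG _ _)) (garzaG_mono ?_))
    (Real.log_nonneg (one_lt_garzaG _ _).le) (by positivity)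
  · rw [div_le_div_iff₀ two_pos (by positivity)]
    linarith
  · rw [div_le_div_iff₀ hr0 hδ, one_mul, mul_comm]
    exact hr

/-- The conjugates of a root of an irreducible integer polynomial. -/
theorem aroots_minpoly_eq {f : ℤ[X]} {x : ℂ} (hf : Irreducible f) (hx : aeval x f = 0) :
    (minpoly ℚ x).aroots ℂ = f.aroots ℂ := by
  rw [BiluTorus.minpoly_eq hf hx, mul_comm, aroots_C_mul _ (inv_ne_zero
    (leadingCoeff_ne_zero.2 (BiluTorus.irreducible_mapQ hf hx).ne_zero)), ← algebraMap_int_eq,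
    aroots_map]

/-- The degree of a root of an irreducible integer polynomial. -/
theorem natDegree_minpoly_eq {f : ℤ[X]} {x : ℂ} (hf : Irreducible f) (hx : aeval x f = 0) :
    (minpoly ℚ x).natDegree = f.natDegree := by
  rw [BiluTorus.minpoly_eq hf hx, natDegree_mul_C (inv_ne_zero
    (leadingCoeff_ne_zero.2 (BiluTorus.irreducible_mapQ hf hx).ne_zero)),
    natDegree_map_eq_of_injective Int.cast_injective]

/-- A real root of an irreducible polynomial with no root at `0, 1, -1`. -/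
theorem exists_real_root {f : ℤ[X]} (hf : Irreducible f) (h0 : f.eval 0 ≠ 0) (h1 : f.eval 1 ≠ 0)
    (h2 : f.eval (-1) ≠ 0) (hr : 0 < ((f.aroots ℂ).filter fun y => y.im = 0).card) :
    ∃ x : ℂ, aeval x f = 0 ∧ x ≠ 0 ∧ x ≠ 1 ∧ x ≠ -1 ∧ IsAlgebraic ℚ x ∧
      realConj x = ((f.aroots ℂ).filter fun y => y.im = 0).card := by
  obtain ⟨x, hx⟩ := Multiset.card_pos_iff_exists_mem.1 hr
  have hx' : aeval x f = 0 := (mem_aroots.1 (Multiset.mem_of_mem_filter hx)).2
  have hne : ∀ n : ℤ, f.eval n ≠ 0 → x ≠ (n : ℂ) := fun n hn e => hn (by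
    rw [e, ← eq_intCast (algebraMap ℤ ℂ) n, aeval_algebraMap_apply, coe_aeval_eq_eval,
      algebraMap_int_eq, eq_intCast, Int.cast_eq_zero] at hx'
    exact hx')
  exact ⟨x, hx', by simpa using hne 0 h0, by simpa using hne 1 h1, by simpa using hne (-1) h2,
    (IsFractionRing.isAlgebraic_iff ℤ ℚ ℂ).1 ⟨f, hf.ne_zero, hx'⟩,
    by rw [realConj, aroots_minpoly_eq hf hx']⟩

/-- **Garza's theorem for the Mahler measure.** -/
theorem mahlerMeasure_ge {f : ℤ[X]} (hf : Irreducible f) (h0 : f.eval 0 ≠ 0) (h1 : f.eval 1 ≠ 0)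
    (h2 : f.eval (-1) ≠ 0) (hr : 0 < ((f.aroots ℂ).filter fun y => y.im = 0).card) :
    garzaG f.natDegree ((f.aroots ℂ).filter fun y => y.im = 0).card ^
        ((((f.aroots ℂ).filter fun y => y.im = 0).card : ℝ) / 2) ≤
      (f.map (Int.castRingHom ℂ)).mahlerMeasure := by
  obtain ⟨x, hx, hx0, hx1, hx2, halg, hrx⟩ := exists_real_root hf h0 h1 h2 hr
  have h := algHeight_ge halg hx0 hx1 hx2 (hrx ▸ hr)
  rw [hrx, natDegree_minpoly_eq hf hx, BiluTorus.algHeight_eq hf hx] at h
  set r := (((f.aroots ℂ).filter fun y => y.im = 0).card : ℝ)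
  have hd : (0 : ℝ) < f.natDegree := Nat.cast_pos.2 (BiluTorus.natDegree_pos_of_root hf hx)
  have hG := zero_lt_one.trans (one_lt_garzaG f.natDegree r)
  have hM : 0 < (f.map (Int.castRingHom ℂ)).mahlerMeasure :=
    mahlerMeasure_pos_of_ne_zero ((Polynomial.map_ne_zero_iff Int.cast_injective).2 hf.ne_zero)
  rw [le_div_iff₀ hd] at h
  rw [← Real.log_le_log_iff (Real.rpow_pos_of_pos hG _) hM, Real.log_rpow hG]
  refine le_trans (le_of_eq ?_) h
  field_simp

/-- **Lehmer's problem with a proportion of real roots.** -/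
theorem exists_pow_le_mahlerMeasure {δ : ℝ} (hδ : 0 < δ) : ∃ c : ℝ, 1 < c ∧
    ∀ f : ℤ[X], Irreducible f → f.eval 0 ≠ 0 → f.eval 1 ≠ 0 → f.eval (-1) ≠ 0 →
      δ * f.natDegree ≤ ((f.aroots ℂ).filter fun y => y.im = 0).card →
        c ^ f.natDegree ≤ (f.map (Int.castRingHom ℂ)).mahlerMeasure := by
  refine ⟨garzaG 1 δ ^ (δ / 2), Real.one_lt_rpow (one_lt_garzaG _ _) (half_pos hδ),
    fun f hf h0 h1 h2 hr => ?_⟩
  rcases Nat.eq_zero_or_pos f.natDegree with hd | hd
  · rw [hd, pow_zero]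
    exact Polynomial.one_le_mahlerMeasure_of_ne_zero hf.ne_zero
  · have hd' : (0 : ℝ) < f.natDegree := Nat.cast_pos.2 hd
    have hr0 := (mul_pos hδ hd').trans_le hr
    refine le_trans ?_ (mahlerMeasure_ge hf h0 h1 h2 (by exact_mod_cast hr0))
    rw [← Real.rpow_natCast, ← Real.rpow_mul (zero_lt_one.trans (one_lt_garzaG _ _)).le]
    refine le_trans (Real.rpow_le_rpow_of_exponent_le (one_lt_garzaG _ _).le ?_)
      (Real.rpow_le_rpow (zero_lt_one.trans (one_lt_garzaG _ _)).le (garzaG_mono ?_) (by positivity))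
    · linarith
    · rw [div_le_div_iff₀ hr0 hδ, one_mul, mul_comm]
      exact hr

/-- A root of unity with a real conjugate is `1` or `-1`. -/
theorem eq_one_or_neg_one {x : ℂ} {n : ℕ} (hn : 0 < n) (hxn : x ^ n = 1) (hr : 0 < realConj x) :
    x = 1 ∨ x = -1 := by
  obtain ⟨y, hy⟩ := Multiset.card_pos_iff_exists_mem.1 hr
  rw [Multiset.mem_filter, mem_aroots] at hy
  obtain ⟨⟨-, hy⟩, him⟩ := hy
  have hint : IsIntegral ℚ x := IsIntegral.of_pow hn (hxn ▸ isIntegral_one)
  have hmin : minpoly ℚ x = minpoly ℚ y :=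
    minpoly.eq_of_irreducible_of_monic (minpoly.irreducible hint) hy (minpoly.monic hint)
  have hyn : y ^ n = 1 := by
    have h : minpoly ℚ x ∣ X ^ n - 1 := minpoly.dvd ℚ x (by simp [hxn])
    obtain ⟨q, hq⟩ := h
    have := congrArg (aeval y) hq
    rw [map_mul, hy, zero_mul, map_sub, map_pow, aeval_X, map_one, sub_eq_zero] at this
    exact this
  have hnorm : |y.re| = 1 := by
    rw [Complex.abs_re_eq_norm.2 him]
    exact Complex.norm_eq_one_of_pow_eq_one hyn hn.ne'
  rcases abs_eq zero_le_one |>.1 hnorm with h | h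
  · rw [show y = ((1 : ℚ) : ℂ) from Complex.ext (by simpa using h) (by simpa using him),
      ← eq_ratCast (algebraMap ℚ ℂ) 1, minpoly.eq_X_sub_C] at hmin
    refine Or.inl ?_
    have := minpoly.aeval ℚ x
    rwa [hmin, map_sub, aeval_X, map_one C, map_one, sub_eq_zero] at this
  · rw [show y = ((-1 : ℚ) : ℂ) from Complex.ext (by simpa using h) (by simpa using him),
      ← eq_ratCast (algebraMap ℚ ℂ) (-1), minpoly.eq_X_sub_C] at hmin
    refine Or.inr ?_
    have := minpoly.aeval ℚ x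
    rwa [hmin, map_sub, aeval_X, map_neg C, map_one C, map_neg, map_one, sub_eq_zero] at this

/-- **Fields with a proportion of real conjugates.** -/
theorem field_bound {δ : ℝ} (hδ : 0 < δ) (K : IntermediateField ℚ ℂ)
    (hK : ∀ x ∈ K, IsAlgebraic ℚ x ∧ δ * (minpoly ℚ x).natDegree ≤ realConj x) :
    (∀ x ∈ K, x ≠ 0 → x ≠ 1 → x ≠ -1 → δ / 2 * log (garzaG 1 δ) ≤ BiluTorus.algHeight x) ∧
      (∀ x ∈ K, ∀ n : ℕ, 0 < n → x ^ n = 1 → x = 1 ∨ x = -1) ∧
      Module.Free ℤ (Additive (Kˣ ⧸ CommGroup.torsion Kˣ)) := by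
  have hb : ∀ x ∈ K, x ≠ 0 → x ≠ 1 → x ≠ -1 → δ / 2 * log (garzaG 1 δ) ≤ BiluTorus.algHeight x :=
    fun x hx h0 h1 h2 => algHeight_ge_proportion hδ (hK x hx).1 h0 h1 h2 (hK x hx).2
  refine ⟨hb, fun x hx n hn hxn => eq_one_or_neg_one hn hxn ?_,
    AbelianHeight.free_units_mod_torsion K (fun x hx => (hK x hx).1)
      (mul_pos (half_pos hδ) (Real.log_pos (one_lt_garzaG _ _))) fun x hx h0 hroot => hb x hx h0
        (fun h => hroot 1 one_pos (by rw [pow_one, h]))
        (fun h => hroot 2 two_pos (by rw [h]; norm_num))⟩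
  have h := (mul_pos hδ (Nat.cast_pos.2 (minpoly.natDegree_pos (hK x hx).1.isIntegral))).trans_le
    (hK x hx).2
  exact_mod_cast h

end FA.RealConjugates

end
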